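import Fermat.Agent.H54.Cft.GCFieldInterfaces
import Fermat.Agent.H76.Cft.FieldDict
import Fermat.Agent.H44.Hasse.SplitCase
import Fermat.Agent.H54.Cft.KummerCharFinite
import Fermat.Agent.H54.Cft.KummerLevel

/-!
# P-CFT / [GC-FIELD] row 1007 (GC-G, helper61): the place count

`placeCount : Fermat.Agent.H54.Cft.PlaceCountStatement`: for a number field `L ≤ ℚ̄` and a prime
`q`, a system `R` of representatives of the double cosets `G_L \ G_ℚ / loc(Γ_q)` has exactly as
many elements as there are primes of `L` over `q`.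

The bijection is `g ↦` the prime of `L` under the place `g • A_q` (`placeBij`):
* well defined: `Fermat.Agent.H54.Cft.exists_heightOne_under`, unique by `heightOne_unique`;
* injective: two places over the same prime of `L` have the same restriction to `L`
  (`Fermat.Agent.H44.Hasse.mem_iff_of_liesOver`), hence are `G_L`-conjugate
  (`Fermat.Agent.H53.transitiveStatement`), hence `g, g'` lie in the same double coset
  (`Fermat.Agent.H76.Cft.samePlace_iff`);
* surjective: every prime of `L` over `q` lies under a place of `ℚ̄` over `q`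
  (`Fermat.Agent.H54.Cft.exists_place_over_heightOne`), which is `x • A_q`
  (`Fermat.Agent.H76.Cft.exists_placeOf_eq`).
-/

set_option autoImplicit false
set_option linter.style.haveILetI false
set_option linter.unusedSectionVars false

open IsDedekindDomain NumberField ExtCitation
open scoped Pointwise

namespace Fermat.Agent.H61.GC

open Fermat.Agent.H54.Cft Fermat.Agent.H73.KD2
open Fermat.Agent.H76.Cft (placeOf placeOf_liesOverPrime exists_placeOf_eq samePlace_iff
  SamePlaceOver)

/-- The prime of `L` under a place of `ℚ̄` is unique. -/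
theorem heightOne_unique (L : IntermediateField ℚ Qbar) [NumberField L]
    {A : ValuationSubring Qbar} {v v' : HeightOneSpectrum (𝓞 L)}
    (h : LiesOverHeightOne L A v) (h' : LiesOverHeightOne L A v') : v = v' := by
  apply HeightOneSpectrum.ext
  haveI := v.isMaximal
  haveI := v'.isPrime
  refine Ideal.IsMaximal.eq_of_le inferInstance (Ideal.IsPrime.ne_top inferInstance) ?_
  intro x hx
  by_contra hnot
  have h1 : A.valuation (((x : L)) : Qbar) = 1 := valuation_eq_one_of_notMem (L := L) h' hnot
  have h2 : A.valuation (((x : L)) : Qbar) < 1 := (A.mem_nonunits_iff).mp (h x hx)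
  rw [h1] at h2
  exact lt_irrefl _ h2

/-- Translating a place by an element of `G_L` does not change the prime of `L` below it. -/
theorem liesOverHeightOne_smul (L : IntermediateField ℚ Qbar) [NumberField L]
    {A : ValuationSubring Qbar} {v : HeightOneSpectrum (𝓞 L)} {ρ : GQ}
    (hρ : ρ ∈ L.fixingSubgroup) (h : LiesOverHeightOne L A v) :
    LiesOverHeightOne L (ρ • A) v := by
  intro x hx
  rw [Fermat.Agent.H96.Cft.mem_nonunits_smul_iff]
  have h1 : ρ⁻¹ (((x : L)) : Qbar) = (((x : L)) : Qbar) :=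
    (IntermediateField.mem_fixingSubgroup_iff L ρ⁻¹).mp (inv_mem hρ) _ (x : L).2
  rw [h1]
  exact h x hx

/-- Two places over `q` lying over the same prime of `L` are `G_L`-conjugate. -/
theorem samePlaceOver_of_liesOver (L : IntermediateField ℚ Qbar) [NumberField L]
    {q : ℕ} (hq : q.Prime) {A A' : ValuationSubring Qbar} {v : HeightOneSpectrum (𝓞 L)}
    (hA' : A'.LiesOverPrime q)
    (h : LiesOverHeightOne L A v) (h' : LiesOverHeightOne L A' v) : SamePlaceOver L A A' := by
  have hres : ∀ y ∈ L, y ∈ A ↔ y ∈ A' := fun y hy =>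
    Fermat.Agent.H44.Hasse.mem_iff_of_liesOver L h h' y hy
  obtain ⟨ρ, hρ1, hρ2⟩ := Fermat.Agent.H53.transitiveStatement L A' A q hq hA' hres
  refine ⟨ρ, (IntermediateField.mem_fixingSubgroup_iff L ρ).mpr hρ1, ?_⟩
  ext x
  show x ∈ ρ • A ↔ x ∈ A'
  rw [Fermat.Agent.H96.Cft.mem_smul_iff, hρ2]
  have : ρ (ρ⁻¹ x) = x := by
    show (ρ * ρ⁻¹) x = x
    rw [mul_inv_cancel]; rfl
  rw [this]

/-- **(G) place count**: a system of representatives of `G_L \ G_ℚ / loc(Γ_q)` has as many
elements as there are primes of `L` over `q`. -/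
theorem placeCount : Fermat.Agent.H54.Cft.PlaceCountStatement := by
  intro L _ q R hR
  classical
  have hex : ∀ g : GQ, ∃ w : HeightOneSpectrum (𝓞 L),
      LiesOverHeightOne L (placeOf q g) w ∧ (((q : ℕ) : ℕ) : 𝓞 L) ∈ w.asIdeal := fun g =>
    exists_heightOne_under L _ q.2 (placeOf_liesOverPrime q g)
  choose f hf1 hf2 using hex
  let F : {g : GQ // g ∈ R} → {w : HeightOneSpectrum (𝓞 L) // (((q : ℕ) : ℕ) : 𝓞 L) ∈ w.asIdeal} :=
    fun g => ⟨f g.1, hf2 g.1⟩
  have hinj : Function.Injective F := by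
    rintro ⟨g, hg⟩ ⟨g', hg'⟩ hgg
    have h1 : f g = f g' := congrArg Subtype.val hgg
    have h2 : LiesOverHeightOne L (placeOf q g') (f g) := by rw [h1]; exact hf1 g'
    have h3 : SamePlaceOver L (placeOf q g) (placeOf q g') :=
      samePlaceOver_of_liesOver L q.2 (placeOf_liesOverPrime q g') (hf1 g) h2
    obtain ⟨u, γ, huγ⟩ := (samePlace_iff q L g g').mpr h3
    obtain ⟨g₀, -, huniq⟩ := hR g'
    have e1 : g = g₀ := huniq g ⟨hg, u, γ, huγ⟩
    have e2 : g' = g₀ := huniq g' ⟨hg', 1, 1, by simp⟩
    exact Subtype.ext (e1.trans e2.symm)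
  have hsurj : Function.Surjective F := by
    rintro ⟨w, hw⟩
    obtain ⟨A, hAq, hAw⟩ := exists_place_over_heightOne L w hw
    obtain ⟨x, hx⟩ := exists_placeOf_eq q hAq
    obtain ⟨g, ⟨hgR, u, γ, hxg⟩, -⟩ := hR x
    obtain ⟨ρ, hρ, hρA⟩ := (samePlace_iff q L g x).mp ⟨u, γ, hxg⟩
    refine ⟨⟨g, hgR⟩, Subtype.ext ?_⟩
    show f g = w
    have h4 : LiesOverHeightOne L (placeOf q g) w := by
      have h5 : placeOf q g = ρ⁻¹ • A := by
        rw [← hx, ← hρA, inv_smul_smul]
      rw [h5]
      exact liesOverHeightOne_smul L (inv_mem hρ) hAw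
    exact heightOne_unique L (hf1 g) h4
  rw [← Nat.card_congr (Equiv.ofBijective F ⟨hinj, hsurj⟩)]
  simp

end Fermat.Agent.H61.GC
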