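/-
P-CFT / [GO2'], row GO2-INF (helper61), part 1: the abstract inflation-restriction step.

`G` acts on the abelian group `U`, `N ⊴ G`, `x : G × G → ZMod p` right-invariant under `N`,
`ζ ∈ U` fixed by `G`, `d b₀ = ζ ^ x` and `b₀ n = ζ₀ · n z / z` on `N`.  Then
`b₁ g = b₀ g · z / g z` has the same coboundary, is right-invariant under `N` and takes values
fixed by `N`.
-/
import Mathlib

set_option autoImplicit false

namespace Fermat.Agent.H61.GO2

section identities

variable {U : Type*} [CommGroup U]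

lemma go_id1 (Z A B : U) : A / B * (Z / A) / (Z / B) = 1 := by
  have h : ∀ (z a b : Additive U), a - b + (z - a) - (z - b) = 0 := by
    intros; abel
  exact h (Additive.ofMul Z) (Additive.ofMul A) (Additive.ofMul B)

lemma go_id2 (A A' B B' C C' : U) :
    A * A' * (B * B') / (C * C') = A * B / C * (A' * B' / C') := by
  have h : ∀ (a a' b b' c c' : Additive U),
      a + a' + (b + b') - (c + c') = a + b - c + (a' + b' - c') := by
    intros; abel
  exact h (Additive.ofMul A) (Additive.ofMul A') (Additive.ofMul B) (Additive.ofMul B')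
    (Additive.ofMul C) (Additive.ofMul C')

lemma go_id3 (Z A W : U) : Z * (A / W) * (W / A) = Z := by
  have h : ∀ (z a w : Additive U), z + (a - w) + (w - a) = z := by
    intros; abel
  exact h (Additive.ofMul Z) (Additive.ofMul A) (Additive.ofMul W)

lemma go_id4 {Z B C : U} (h : Z * B / C = Z) : C = B := by
  have h' : ∀ (z b c : Additive U), z + b - c = z → c = b := by
    intro z b c h
    have : (z + b - c) - z = b - c := by abel
    rw [h, sub_self] at this
    exact (sub_eq_zero.1 this.symm).symm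
  exact h' (Additive.ofMul Z) (Additive.ofMul B) (Additive.ofMul C) h

lemma go_id5 {Z A B : U} (h : A * Z / B = Z) : A = B := by
  have h' : ∀ (z a b : Additive U), a + z - b = z → a = b := by
    intro z a b h
    have : (a + z - b) - z = a - b := by abel
    rw [h, sub_self] at this
    exact sub_eq_zero.1 this.symm
  exact h' (Additive.ofMul Z) (Additive.ofMul A) (Additive.ofMul B) h

end identities

/-- **Inflation-restriction, abstract step.** -/
theorem infres_core {G U : Type*} [Group G] [CommGroup U] (a : G → U →* U)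
    (ha1 : ∀ u, a 1 u = u) (hamul : ∀ g h u, a (g * h) u = a g (a h u))
    (N : Subgroup G) [hN : N.Normal] {p : ℕ} (x : G × G → ZMod p)
    (hx : ∀ g h, ∀ n ∈ N, ∀ m ∈ N, x (g * n, h * m) = x (g, h))
    (ζ : U) (hζ : ∀ g, a g ζ = ζ)
    (b₀ : G → U) (hb₀ : ∀ g h, a g (b₀ h) * b₀ g / b₀ (g * h) = ζ ^ (x (g, h)).val)
    (z : U) (hz : ∀ n ∈ N, b₀ n = ζ ^ (x (1, 1)).val * (a n z / z)) :
    ∃ b₁ : G → U, (∀ g h, a g (b₁ h) * b₁ g / b₁ (g * h) = ζ ^ (x (g, h)).val) ∧
      (∀ g, ∀ n ∈ N, b₁ (g * n) = b₁ g) ∧ (∀ g, ∀ n ∈ N, a n (b₁ g) = b₁ g) := by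
  set ζ₀ : U := ζ ^ (x (1, 1)).val with hζ₀
  have hζ₀fix : ∀ g, a g ζ₀ = ζ₀ := fun g => by rw [hζ₀, map_pow, hζ]
  let b₁ : G → U := fun g => b₀ g * (z / a g z)
  -- the coboundary
  have hd : ∀ g h, a g (b₁ h) * b₁ g / b₁ (g * h) = ζ ^ (x (g, h)).val := by
    intro g h
    show a g (b₀ h * (z / a h z)) * (b₀ g * (z / a g z)) / (b₀ (g * h) * (z / a (g * h) z)) = _
    rw [map_mul, map_div, ← hamul, go_id2, go_id1, mul_one]
    exact hb₀ g h
  -- values on `N`
  have hN1 : ∀ n ∈ N, b₁ n = ζ₀ := by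
    intro n hn
    show b₀ n * (z / a n z) = ζ₀
    rw [hz n hn]
    exact go_id3 _ _ _
  have h11 : b₁ 1 = ζ₀ := hN1 1 N.one_mem
  -- `ζ ^ x (g, 1) = ζ₀ = ζ ^ x (1, g)`
  have hxg1 : ∀ g, ζ ^ (x (g, 1)).val = ζ₀ := by
    intro g
    rw [← hd g 1, h11, hζ₀fix, mul_one, mul_div_assoc, div_self', mul_one]
  have hx1g : ∀ g, ζ ^ (x (1, g)).val = ζ₀ := by
    intro g
    rw [← hd 1 g, h11, ha1, one_mul, mul_comm, mul_div_assoc, div_self', mul_one]
  -- right invariance
  have hinv : ∀ g, ∀ n ∈ N, b₁ (g * n) = b₁ g := by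
    intro g n hn
    have h1 := hd g n
    have h2 : x (g, n) = x (g, 1) := by
      have := hx g 1 1 N.one_mem n hn
      rwa [mul_one, one_mul] at this
    rw [h2, hxg1, hN1 n hn, hζ₀fix] at h1
    exact go_id4 h1
  refine ⟨b₁, hd, hinv, ?_⟩
  -- the values are fixed by `N`
  intro g n hn
  have h1 := hd n g
  have h2 : x (n, g) = x (1, g) := by
    have := hx 1 g n hn 1 N.one_mem
    rwa [one_mul, mul_one] at this
  have h3 : b₁ (n * g) = b₁ g := by
    have hconj : g⁻¹ * n * g ∈ N := by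
      have := hN.conj_mem n hn g⁻¹
      rwa [inv_inv] at this
    have := hinv g (g⁻¹ * n * g) hconj
    rwa [← mul_assoc, mul_inv_cancel_left] at this
  rw [h2, hx1g, hN1 n hn, h3] at h1
  exact go_id5 h1

end Fermat.Agent.H61.GO2
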