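/-
P-CFT / [GO2'], row GO2-INF (helper61), part 2: `inf2S : Inf2SStatement`.

If `ζ ^ x` (`x` an `S`-level cochain of `G_L`) is the coboundary of a level cochain with values
in `ℚ̄ˣ`, it is the coboundary of an `S`-level cochain with values in `ℚ_Sˣ`.
-/
import Mathlib
import Fermat.Agent.H54.Cft.GO2Interfaces
import Fermat.Agent.H57.CFT.H90Lvl
import Fermat.Agent.H21.Cft.BridgeLevels
import Fermat.Agent.H61.Cft.Inf2SCore

set_option autoImplicit false
set_option linter.style.haveILetI false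
set_option linter.unusedSectionVars false

noncomputable section

namespace Fermat.Agent.H61.GO2

open Fermat.Agent.H54.Cft Fermat.Agent.H78.CFT
open Fermat.Agent.H76.Cft (QS ES)

/-- Every field unramified outside `S` is contained in one which is moreover normal. -/
theorem exists_normal_unram (S : Finset Nat.Primes) {F : IntermediateField ℚ Qbar}
    (hF : F.IsUnramifiedOutside S) :
    ∃ F' : IntermediateField ℚ Qbar, F'.IsUnramifiedOutside S ∧ F'.fixingSubgroup.Normal ∧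
      F'.fixingSubgroup ≤ F.fixingSubgroup := by
  obtain ⟨F', hF', hfix⟩ := Fermat.Agent.H21.Cft.exists_unramified_field_of_level S
    (Fermat.Agent.H21.Cft.normalCore_mem_globalLevelSys S hF)
  refine ⟨F', hF', ?_, ?_⟩
  · rw [hfix]
    exact Subgroup.normalCore_normal _
  · rw [hfix]
    exact Subgroup.normalCore_le _

/-- **[INF2-S]** -/
theorem inf2S : Inf2SStatement := by
  intro p _ S L hL ζ hζ hζL x hx b₀ hb₀ hd
  obtain ⟨F, hF, hxF⟩ := hx
  obtain ⟨F₀, hF₀, hbF₀⟩ := hb₀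
  obtain ⟨F', hF', hF'n, hF'le⟩ := exists_normal_unram S (hF.sup hL)
  rw [IntermediateField.fixingSubgroup_sup] at hF'le
  have hF'F : F'.fixingSubgroup ≤ F.fixingSubgroup := fun σ hσ => (hF'le hσ).1
  have hF'L : F'.fixingSubgroup ≤ L.fixingSubgroup := fun σ hσ => (hF'le hσ).2
  -- the normal subgroup
  let N : Subgroup (GalL L) := F'.fixingSubgroup.subgroupOf L.fixingSubgroup
  haveI hNn : N.Normal := hF'n.subgroupOf _
  have hmemN : ∀ n : GalL L, n ∈ N ↔ (n : GQ) ∈ F'.fixingSubgroup := fun n =>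
    Subgroup.mem_subgroupOf
  -- `ζ` is fixed
  have hζfix : ∀ g : GalL L, galU (g : GQ) ζ = ζ := by
    intro g
    apply Units.ext
    rw [coe_galU]
    exact (IntermediateField.mem_fixingSubgroup_iff L _).1 g.2 _ hζL
  set ζ₀ : Qbarˣ := ζ ^ (x (1, 1)).val with hζ₀
  have hζ₀fix : ∀ g : GalL L, galU (g : GQ) ζ₀ = ζ₀ := fun g => by rw [hζ₀, map_pow, hζfix]
  -- the cocycle on `G_{F'}`
  let ι : F'.fixingSubgroup → GalL L := fun n => ⟨(n : GQ), hF'L n.2⟩
  have hιmul : ∀ n m : F'.fixingSubgroup, ι (n * m) = ι n * ι m := fun n m => rfl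
  have hιN : ∀ n : F'.fixingSubgroup, ι n ∈ N := fun n => (hmemN _).2 n.2
  let c : F'.fixingSubgroup → Qbarˣ := fun n => b₀ (ι n) / ζ₀
  have hxNN : ∀ n m : GalL L, n ∈ N → m ∈ N → x (n, m) = x (1, 1) := by
    intro n m hn hm
    have := hxF 1 1 n m (hF'F ((hmemN n).1 hn)) (hF'F ((hmemN m).1 hm))
    rwa [one_mul, one_mul] at this
  have hc_coc : IsMulCocycle₁E F' c := by
    intro n m
    show b₀ (ι (n * m)) / ζ₀ = actU (n : GQ) (b₀ (ι m) / ζ₀) * (b₀ (ι n) / ζ₀)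
    have h1 := hd (ι n) (ι m)
    rw [hxNN _ _ (hιN n) (hιN m), ← hζ₀] at h1
    have h2 : actU (n : GQ) (b₀ (ι m) / ζ₀) = galU ((ι n : GalL L) : GQ) (b₀ (ι m)) / ζ₀ := by
      rw [map_div]
      congr 1
      exact hζ₀fix (ι n)
    rw [h2, hιmul]
    have h3 : galU ((ι n : GalL L) : GQ) (b₀ (ι m)) * b₀ (ι n) = ζ₀ * b₀ (ι n * ι m) := by
      rw [← h1, div_mul_cancel]
    rw [div_mul_div_comm, h3, mul_div_mul_left_eq_div]
  have hc_lvl : IsLvlFun₁ (lvlE F') c := by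
    haveI : FiniteDimensional ℚ F₀ := hF₀
    obtain ⟨N', hN', hN'le⟩ := Fermat.Agent.H57.CFT.exists_lvlE_le F' F₀
    refine ⟨N', hN', fun g n hn => ?_⟩
    show b₀ (ι (g * n)) / ζ₀ = b₀ (ι g) / ζ₀
    rw [hιmul, hbF₀ (ι g) (ι n) (hN'le hn)]
  obtain ⟨z, hz⟩ := Fermat.Agent.H57.CFT.h90Lvl F' c hc_lvl hc_coc
  -- the abstract step
  obtain ⟨b₁, hd₁, hinv, hfix⟩ := infres_core (fun g : GalL L => galU (g : GQ))
    (fun u => by apply Units.ext; rfl) (fun g h u => by apply Units.ext; rfl) N x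
    (fun g h n hn m hm => hxF g h n m (hF'F ((hmemN n).1 hn)) (hF'F ((hmemN m).1 hm)))
    ζ hζfix b₀ hd z (fun n hn => by
      have h1 := hz ⟨(n : GQ), (hmemN n).1 hn⟩
      have h3 : b₀ n / ζ₀ = galU (n : GQ) z / z := h1
      rw [div_eq_iff_eq_mul] at h3
      show b₀ n = ζ₀ * (galU (n : GQ) z / z)
      rw [h3, mul_comm])
  refine ⟨b₁, ⟨F', hF', fun g n hn => hinv g n ((hmemN n).2 hn)⟩, fun g => ?_, hd₁⟩
  -- the values lie in `F' ≤ ℚ_S`
  have hmem : ((b₁ g : Qbarˣ) : Qbar) ∈ F' := by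
    haveI := Fermat.Agent.H57.CFT.isGalois_qb
    rw [← InfiniteGalois.fixedField_fixingSubgroup F', IntermediateField.mem_fixedField_iff]
    intro σ hσ
    have := hfix g ⟨σ, hF'L hσ⟩ ((hmemN _).2 hσ)
    exact congrArg (fun u : Qbarˣ => (u : Qbar)) this
  exact (le_iSup (fun F : {F : IntermediateField ℚ Qbar // F.IsUnramifiedOutside S} => F.1)
    ⟨F', hF'⟩) hmem

end Fermat.Agent.H61.GO2

end
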